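import Fermat.Agent.Ribet.H375.ELOCOrdSpec

/-!
# Row 38, WALL-p, ELOC-ord, leaf (F): first-order expansion of the addition law (helper215)

`firstOrder : Fermat.Agent.Ribet.H375.FirstOrderStatement`.

Exact identity used (with `x₃ = X(P + T)`, `P = (x, y)`, `T = (X, Y)`, `x ≠ X`):
`(x₃ - x) (X - x)² = -Y (2y + a₁x + a₃) + X (3x² + 2a₂x + a₄ - a₁y) + (-x³ + a₄x + 2a₆ - a₃y)`.
-/

set_option autoImplicit false

open WeierstrassCurve WeierstrassCurve.Affine WeierstrassCurve.Affine.Point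

namespace Fermat.Agent.Ribet.H215

open Fermat.Agent.S05.SameRed

variable {K : Type*} [Field K] [DecidableEq K]
  {Γ₀ : Type*} [LinearOrderedCommGroupWithZero Γ₀]
  {W : Affine K} {v : Valuation K Γ₀}

/-- On an integral Weierstrass equation, an integral `x` forces an integral `y`. -/
theorem val_y_le_one_h215 (hW : IntegralCoeffs W v) {x y : K} (h : W.Equation x y)
    (hx : v x ≤ 1) : v y ≤ 1 := by
  by_contra hy
  rw [not_le] at hy
  have e := (Affine.equation_iff x y).mp h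
  have hy0 : 0 < v y := lt_trans zero_lt_one hy
  -- `y (y + a₁ x + a₃)` has valuation `v y ^ 2 > 1`
  have h1 : v (W.a₁ * x + W.a₃) ≤ 1 := val_add_le_one (val_mul_le_one hW.a₁ hx) hW.a₃
  have h2 : v (y + (W.a₁ * x + W.a₃)) = v y :=
    v.map_add_eq_of_lt_left (h1.trans_lt hy)
  have h3 : v (y ^ 2 + W.a₁ * x * y + W.a₃ * y) = v y * v y := by
    have : y ^ 2 + W.a₁ * x * y + W.a₃ * y = y * (y + (W.a₁ * x + W.a₃)) := by ring
    rw [this, map_mul, h2]
  have h4 : v (x ^ 3 + W.a₂ * x ^ 2 + W.a₄ * x + W.a₆) ≤ 1 := by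
    have hx2 : v (x ^ 2) ≤ 1 := by rw [pow_two]; exact val_mul_le_one hx hx
    have hx3 : v (x ^ 3) ≤ 1 := by
      have : x ^ 3 = x ^ 2 * x := by ring
      rw [this]; exact val_mul_le_one hx2 hx
    exact val_add_le_one (val_add_le_one (val_add_le_one hx3 (val_mul_le_one hW.a₂ hx2))
      (val_mul_le_one hW.a₄ hx)) hW.a₆
  rw [e] at h3
  have h5 : 1 < v y * v y := by
    calc (1 : Γ₀) < v y := hy
      _ = v y * 1 := (mul_one _).symm
      _ ≤ v y * v y := mul_le_mul_right hy.le _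
  exact absurd h4 (not_le.mpr (h3 ▸ h5))

/-- For a point with non-integral `x`-coordinate: `v Y ^ 2 = v X ^ 3` and `v X < v Y`. -/
theorem val_kernel_point_h215 (hW : IntegralCoeffs W v) {X Y : K} (h : W.Equation X Y)
    (hX : 1 < v X) : v X < v Y ∧ v Y * v Y = v X * v X * v X := by
  have e := (Affine.equation_iff X Y).mp h
  have hX0 : 0 < v X := lt_trans zero_lt_one hX
  have hXX : v X < v X * v X := by
    calc v X = v X * 1 := (mul_one _).symm
      _ < v X * v X := by
        exact mul_lt_mul_of_pos_left hX hX0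
  have hXXX : v X * v X < v X * v X * v X := by
    calc v X * v X = v X * v X * 1 := (mul_one _).symm
      _ < v X * v X * v X := mul_lt_mul_of_pos_left hX (mul_pos hX0 hX0)
  -- right hand side has valuation `v X ^ 3`
  have hR : v (X ^ 3 + W.a₂ * X ^ 2 + W.a₄ * X + W.a₆) = v X * v X * v X := by
    have h3 : v (X ^ 3) = v X * v X * v X := by
      rw [show X ^ 3 = X * X * X by ring, map_mul, map_mul]
    have h2 : v (W.a₂ * X ^ 2) ≤ v X * v X := by
      rw [show W.a₂ * X ^ 2 = W.a₂ * (X * X) by ring, map_mul, map_mul]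
      exact mul_le_of_le_one_left' hW.a₂
    have h1 : v (W.a₄ * X) ≤ v X := by
      rw [map_mul]; exact mul_le_of_le_one_left' hW.a₄
    have hA : v (X ^ 3 + W.a₂ * X ^ 2) = v X * v X * v X := by
      rw [v.map_add_eq_of_lt_left (by rw [h3]; exact h2.trans_lt hXXX), h3]
    have hB : v (X ^ 3 + W.a₂ * X ^ 2 + W.a₄ * X) = v X * v X * v X := by
      rw [v.map_add_eq_of_lt_left (by rw [hA]; exact h1.trans_lt (hXX.trans hXXX)), hA]
    rw [v.map_add_eq_of_lt_left (by
      rw [hB]; exact hW.a₆.trans_lt (hX.trans (hXX.trans hXXX))), hB]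
  have hL : v (Y * (Y + (W.a₁ * X + W.a₃))) = v X * v X * v X := by
    rw [← hR, ← e]; congr 1; ring
  have h1 : v (W.a₁ * X + W.a₃) ≤ v X :=
    (v.map_add _ _).trans (max_le (by rw [map_mul]; exact mul_le_of_le_one_left' hW.a₁)
      (hW.a₃.trans hX.le))
  have hXY : v X < v Y := by
    by_contra hle
    rw [not_lt] at hle
    have h2 : v (Y + (W.a₁ * X + W.a₃)) ≤ v X := (v.map_add _ _).trans (max_le hle h1)
    have h3 : v (Y * (Y + (W.a₁ * X + W.a₃))) ≤ v X * v X := by
      rw [map_mul]; exact mul_le_mul' hle h2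
    rw [hL] at h3
    exact absurd h3 (not_le.mpr hXXX)
  refine ⟨hXY, ?_⟩
  have h2 : v (Y + (W.a₁ * X + W.a₃)) = v Y := v.map_add_eq_of_lt_left (h1.trans_lt hXY)
  rw [← hL, map_mul, h2]

/-- **(F), general valuation.**  `P = (x, y)` integral with `2y + a₁x + a₃` a unit, `T = (X, Y)`
with `X` non-integral: `x ≠ X`, the `x`-coordinate `x₃` of `P + T` is integral and
`(x₃ - x) Y / X` is a unit. -/
theorem firstOrder_val_h215 (hW : IntegralCoeffs W v) {x y X Y : K}
    (h : W.Equation x y) (hT : W.Equation X Y) (hx : v x ≤ 1) (hX : 1 < v X)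
    (hu : v (2 * y + W.a₁ * x + W.a₃) = 1) :
    x ≠ X ∧ v (W.addX x X (W.slope x X y Y)) ≤ 1 ∧
      v ((W.addX x X (W.slope x X y Y) - x) * Y / X) = 1 := by
  have hxX : x ≠ X := by
    rintro rfl
    exact absurd hx (not_le.mpr hX)
  refine ⟨hxX, ?_⟩
  have hy : v y ≤ 1 := val_y_le_one_h215 hW h hx
  obtain ⟨hXY, hYY⟩ := val_kernel_point_h215 hW hT hX
  have hX0 : 0 < v X := lt_trans zero_lt_one hX
  have hY0 : 0 < v Y := hX0.trans hXY
  have hXne : X ≠ 0 := (Valuation.pos_iff v).mp hX0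
  have hYne : Y ≠ 0 := (Valuation.pos_iff v).mp hY0
  have e₁ := (Affine.equation_iff x y).mp h
  have e₂ := (Affine.equation_iff X Y).mp hT
  set x₃ : K := W.addX x X (W.slope x X y Y) with hx₃
  have hd : x - X ≠ 0 := sub_ne_zero.mpr hxX
  -- the exact identity
  have key : (x₃ - x) * (X - x) ^ 2 =
      -(Y * (2 * y + W.a₁ * x + W.a₃)) + (X * (3 * x ^ 2 + 2 * W.a₂ * x + W.a₄ - W.a₁ * y) +
        (-x ^ 3 + W.a₄ * x + 2 * W.a₆ - W.a₃ * y)) := by
    have hm : W.slope x X y Y * (x - X) = y - Y := by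
      rw [Affine.slope_of_X_ne hxX, div_mul_cancel₀ _ hd]
    rw [hx₃]
    simp only [Affine.addX]
    linear_combination (W.slope x X y Y * (x - X) + (y - Y) + W.a₁ * (x - X)) * hm + e₁ + e₂
  -- valuations of the three terms
  have hx2 : v (x ^ 2) ≤ 1 := by rw [pow_two]; exact val_mul_le_one hx hx
  have hx3 : v (x ^ 3) ≤ 1 := by
    rw [show x ^ 3 = x ^ 2 * x by ring]; exact val_mul_le_one hx2 hx
  have hg : v (3 * x ^ 2 + 2 * W.a₂ * x + W.a₄ - W.a₁ * y) ≤ 1 := by
    refine val_sub_le_one (val_add_le_one (val_add_le_one ?_ ?_) hW.a₄) (val_mul_le_one hW.a₁ hy)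
    · exact val_mul_le_one (by exact_mod_cast val_natCast_le_one (v := v) 3) hx2
    · exact val_mul_le_one (val_mul_le_one (by exact_mod_cast val_natCast_le_one (v := v) 2)
        hW.a₂) hx
  have hc : v (-x ^ 3 + W.a₄ * x + 2 * W.a₆ - W.a₃ * y) ≤ 1 := by
    refine val_sub_le_one (val_add_le_one (val_add_le_one ?_ (val_mul_le_one hW.a₄ hx)) ?_)
      (val_mul_le_one hW.a₃ hy)
    · rw [Valuation.map_neg]; exact hx3
    · exact val_mul_le_one (by exact_mod_cast val_natCast_le_one (v := v) 2) hW.a₆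
  have h1 : v (-(Y * (2 * y + W.a₁ * x + W.a₃))) = v Y := by
    rw [Valuation.map_neg, map_mul, hu, mul_one]
  have h2 : v (X * (3 * x ^ 2 + 2 * W.a₂ * x + W.a₄ - W.a₁ * y) +
      (-x ^ 3 + W.a₄ * x + 2 * W.a₆ - W.a₃ * y)) < v Y := by
    refine (v.map_add _ _).trans_lt (max_lt ?_ (hc.trans_lt (hX.trans hXY)))
    rw [map_mul]
    exact (mul_le_of_le_one_right' hg).trans_lt hXY
  have hkey : v ((x₃ - x) * (X - x) ^ 2) = v Y := by
    rw [key, v.map_add_eq_of_lt_left (by rw [h1]; exact h2), h1]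
  have hXx : v (X - x) = v X := v.map_sub_eq_of_lt_left (hx.trans_lt hX)
  have hval : v (x₃ - x) * (v X * v X) = v Y := by
    rw [← hkey, map_mul, pow_two, map_mul, hXx]
  -- `v (x₃ - x) = v X / v Y`
  have hXX0 : v X * v X ≠ 0 := (mul_pos hX0 hX0).ne'
  have hval2 : v (x₃ - x) * v Y = v X := by
    have : v (x₃ - x) * v Y * (v X * v X) = v X * (v X * v X) := by
      calc v (x₃ - x) * v Y * (v X * v X) = (v (x₃ - x) * (v X * v X)) * v Y := by
            rw [mul_assoc, mul_comm (v Y), ← mul_assoc]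
        _ = v Y * v Y := by rw [hval]
        _ = v X * v X * v X := hYY
        _ = v X * (v X * v X) := mul_assoc _ _ _
    exact mul_right_cancel₀ hXX0 this
  have hlt : v (x₃ - x) < 1 := by
    by_contra hge
    rw [not_lt] at hge
    have : v Y ≤ v (x₃ - x) * v Y := le_mul_of_one_le_left' hge
    rw [hval2] at this
    exact absurd this (not_le.mpr hXY)
  refine ⟨?_, ?_⟩
  · have : x₃ = (x₃ - x) + x := by ring
    rw [this]
    exact val_add_le_one hlt.le hx
  · rw [map_div₀, map_mul, hval2]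
    exact div_self hX0.ne'

/-- **Leaf (F)** of ELOC-ord: `H375.FirstOrderStatement`. -/
theorem firstOrder : Fermat.Agent.Ribet.H375.FirstOrderStatement := by
  intro K _ _ A W hW x y X Y h hT hx hX hu
  have hx' : A.valuation x ≤ 1 := (A.valuation_le_one_iff x).mpr hx
  have hX' : 1 < A.valuation X := by
    rw [← not_le]
    exact fun hle => hX ((A.valuation_le_one_iff X).mp hle)
  obtain ⟨hxX, h1, h2⟩ := firstOrder_val_h215 hW h.1 hT.1 hx' hX' hu
  refine ⟨W.addX x X (W.slope x X y Y), W.addY x X y (W.slope x X y Y),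
    nonsingular_add h hT (fun hxy => absurd hxy.1 hxX), ?_, ?_, h2⟩
  · exact Point.add_of_X_ne hxX
  · exact (A.valuation_le_one_iff _).mp h1

end Fermat.Agent.Ribet.H215
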