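import Fermat.Agent.Ribet.H375.ELOCOrdSpec
import Fermat.Agent.S05.GoodRed
import Fermat.Agent.Lib.Red.H290.RedKer

/-!
# Row 38, WALL-p, ELOC-ord, leaf (U): `2y + a₁x + a₃` is a unit (helper215)

`twoUnit : Fermat.Agent.Ribet.H375.TwoUnitStatement`.

Proof: if `u = 2y + a₁x + a₃` is not a unit at `A`, then `P = (x, y)` and `-P` have the same
(nonsingular, as `p ∤ Δ`) reduction, so `2P = P - (-P)` is in the kernel of reduction `E₁`
(`S05.SameRed.inKer_sub_of_same_reduction`); `E₁` is a subgroup (`Lib.Red.H290.inKer_add`) and `p` is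
odd with `pP = 0`, so `P ∈ E₁`, i.e. `x ∉ A`.
-/

set_option autoImplicit false

open WeierstrassCurve WeierstrassCurve.Affine WeierstrassCurve.Affine.Point

namespace Fermat.Agent.Ribet.H215

open Fermat.Agent.S05.SameRed

section general

variable {K : Type*} [Field K] [DecidableEq K]
  {Γ₀ : Type*} [LinearOrderedCommGroupWithZero Γ₀]
  {W : Affine K} {v : Valuation K Γ₀}

/-- The kernel of reduction is stable under `n • ·`. -/
theorem inKer_nsmul_h215 (hW : IntegralCoeffs W v) {P : W.Point} (hP : InKer W v P) (n : ℕ) :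
    InKer W v (n • P) := by
  induction n with
  | zero => rw [zero_smul]; exact inKer_zero
  | succ n ih => rw [succ_nsmul]; exact Fermat.Agent.Lib.Red.H290.inKer_add hW ih hP

/-- **(U), general valuation.**  Integral coefficients, unit discriminant, `P = (x, y)` integral
and killed by an odd number `n`: `2y + a₁x + a₃` is a unit. -/
theorem twoUnit_val_h215 (hW : IntegralCoeffs W v) (hΔ : v W.Δ = 1) {x y : K}
    (h : W.Nonsingular x y) (hx : v x ≤ 1) {n : ℕ} (hn : Odd n)
    (hP : n • (Point.some x y h) = 0) :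
    v (2 * y + W.a₁ * x + W.a₃) = 1 := by
  by_contra hu
  have hy : v y ≤ 1 := Fermat.Agent.S05.GoodRed.val_y_le_one hW h.1 hx
  have hns := Fermat.Agent.S05.GoodRed.nonsingular_reduction_of_val_Δ hW hΔ h.1 hx
  have hX : v (W.a₁ * y - (3 * x ^ 2 + 2 * W.a₂ * x + W.a₄)) = 1 := hns.resolve_right hu
  have hule : v (2 * y + W.a₁ * x + W.a₃) ≤ 1 := by
    refine val_add_le_one (val_add_le_one (val_mul_le_one ?_ hy) (val_mul_le_one hW.a₁ hx)) hW.a₃
    exact_mod_cast val_natCast_le_one (v := v) 2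
  have hult : v (2 * y + W.a₁ * x + W.a₃) < 1 := lt_of_le_of_ne hule hu
  have hneg : W.Nonsingular x (W.negY x y) := (Affine.nonsingular_neg x y).mpr h
  have hnegY : v (W.negY x y) ≤ 1 := by
    have : W.negY x y = -y - W.a₁ * x - W.a₃ := rfl
    rw [this]
    exact val_sub_le_one (val_sub_le_one (by rwa [Valuation.map_neg]) (val_mul_le_one hW.a₁ hx))
      hW.a₃
  have hker : InKer W v (Point.some x y h - Point.some x (W.negY x y) hneg) := by
    refine inKer_sub_of_same_reduction hW h hneg hx hy hx hnegY ?_ ?_ (Or.inl hX)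
    · rw [sub_self, _root_.map_zero]; exact zero_lt_one
    · have : y - W.negY x y = 2 * y + W.a₁ * x + W.a₃ := by
        simp only [Affine.negY]; ring
      rw [this]; exact hult
  have hdbl : Point.some x y h - Point.some x (W.negY x y) hneg = 2 • Point.some x y h := by
    rw [← Point.neg_some, sub_neg_eq_add, two_nsmul]
  rw [hdbl] at hker
  obtain ⟨k, hk⟩ := hn
  have hPk : Point.some x y h = -(k • (2 • Point.some x y h)) := by
    have h1 : n • Point.some x y h = k • (2 • Point.some x y h) + Point.some x y h := by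
      rw [hk, add_smul, one_smul, mul_comm, mul_smul]
    rw [hP] at h1
    exact eq_neg_of_add_eq_zero_right h1.symm
  have hfin : InKer W v (Point.some x y h) := by
    rw [hPk]
    exact Fermat.Agent.Lib.Red.H290.inKer_neg (inKer_nsmul_h215 hW hker k)
  rw [inKer_some] at hfin
  exact absurd hx (not_le.mpr hfin)

end general

section concrete

variable (W : WeierstrassCurve ℤ) (A : ValuationSubring (AlgebraicClosure ℚ))

/-- Integers are integral at every valuation subring of `ℚ̄`. -/
theorem val_intCast_le_one_h215 (n : ℤ) : A.valuation ((n : ℚ) : AlgebraicClosure ℚ) ≤ 1 := by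
  rw [A.valuation_le_one_iff]
  have : ((n : ℚ) : AlgebraicClosure ℚ) = ((n : ℤ) : AlgebraicClosure ℚ) := by push_cast; rfl
  rw [this]
  exact intCast_mem A n

/-- The base change to `ℚ̄` of a Weierstrass curve over `ℤ` has integral coefficients. -/
theorem integralCoeffs_int_h215 :
    IntegralCoeffs ((W.map (Int.castRingHom ℚ))⁄(AlgebraicClosure ℚ)) A.valuation where
  a₁ := val_intCast_le_one_h215 A W.a₁
  a₂ := val_intCast_le_one_h215 A W.a₂
  a₃ := val_intCast_le_one_h215 A W.a₃
  a₄ := val_intCast_le_one_h215 A W.a₄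
  a₆ := val_intCast_le_one_h215 A W.a₆

/-- At a prime of good reduction the discriminant is a unit. -/
theorem val_Δ_eq_one_h215 {p : ℕ} (hp : p.Prime) (hgood : W.IsGoodPrimeFor p)
    (hA : A.LiesOverPrime p) :
    A.valuation ((W.map (Int.castRingHom ℚ))⁄(AlgebraicClosure ℚ)).Δ = 1 := by
  have hΔ : ((W.map (Int.castRingHom ℚ))⁄(AlgebraicClosure ℚ)).Δ
      = ((W.Δ : ℤ) : AlgebraicClosure ℚ) := by
    have e1 : ((W.map (Int.castRingHom ℚ))⁄(AlgebraicClosure ℚ)).Δ
        = algebraMap ℚ (AlgebraicClosure ℚ) (W.map (Int.castRingHom ℚ)).Δ :=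
      WeierstrassCurve.map_Δ ..
    rw [e1, WeierstrassCurve.map_Δ]
    simp
  rw [hΔ]
  have hq' : A.valuation (p : AlgebraicClosure ℚ) < 1 := (A.mem_nonunits_iff).mp hA
  have hle : ∀ m : ℤ, A.valuation (m : AlgebraicClosure ℚ) ≤ 1 := fun m =>
    (A.valuation_le_one_iff _).mpr (intCast_mem A m)
  have hcop : IsCoprime (p : ℤ) W.Δ :=
    (Prime.coprime_iff_not_dvd (Nat.prime_iff_prime_int.mp hp)).mpr hgood
  obtain ⟨u, w, huw⟩ := hcop
  have h1 : (u : AlgebraicClosure ℚ) * (p : AlgebraicClosure ℚ)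
      + (w : AlgebraicClosure ℚ) * ((W.Δ : ℤ) : AlgebraicClosure ℚ) = 1 := by
    exact_mod_cast congrArg (Int.cast : ℤ → AlgebraicClosure ℚ) huw
  have hsmall : A.valuation ((u : AlgebraicClosure ℚ) * (p : AlgebraicClosure ℚ)) < 1 := by
    rw [map_mul]
    exact (mul_le_of_le_one_left' (hle u)).trans_lt hq'
  have hwn : A.valuation ((w : AlgebraicClosure ℚ) * ((W.Δ : ℤ) : AlgebraicClosure ℚ)) = 1 := by
    have : (w : AlgebraicClosure ℚ) * ((W.Δ : ℤ) : AlgebraicClosure ℚ)
        = 1 + -((u : AlgebraicClosure ℚ) * (p : AlgebraicClosure ℚ)) := by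
      linear_combination h1
    rw [this, (A.valuation).map_add_eq_of_lt_left
      (by rw [Valuation.map_neg, map_one]; exact hsmall), map_one]
  rw [map_mul] at hwn
  refine le_antisymm (hle _) ?_
  calc (1 : A.ValueGroup)
      = A.valuation (w : AlgebraicClosure ℚ) * A.valuation ((W.Δ : ℤ) : AlgebraicClosure ℚ) :=
        hwn.symm
    _ ≤ 1 * A.valuation ((W.Δ : ℤ) : AlgebraicClosure ℚ) := mul_le_mul_left (hle w) _
    _ = A.valuation ((W.Δ : ℤ) : AlgebraicClosure ℚ) := one_mul _

end concrete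

/-- **Leaf (U)** of ELOC-ord: `H375.TwoUnitStatement`. -/
theorem twoUnit : Fermat.Agent.Ribet.H375.TwoUnitStatement := by
  intro W p _ hp hp2 hgood A hA x y h hP hx
  have hodd : Odd p := hp.odd_of_ne_two hp2
  exact twoUnit_val_h215 (integralCoeffs_int_h215 W A) (val_Δ_eq_one_h215 W A hp hgood hA) h
    ((A.valuation_le_one_iff x).mpr hx) hodd hP

end Fermat.Agent.Ribet.H215
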